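/-
P-H1 row 763 (H1-LOW), helper73.

`KummerLowerStatement` from `LatticeRankStatement`: with `Λ = Hom_par(Γ₀(N), ℤ)` free of rank
`s ≥ 2 g`, the characters `γ ↦ ζ ^ ψ γ` (`ζ = exp (2πi/m)`), for `ψ = ∑ aᵢ ψᵢ` with
`0 ≤ aᵢ < m`, are pairwise distinct Kummer characters of exponent `m`.
-/
import Fermat.Agent.H63.H1.Interfaces
import Fermat.Agent.H14.S31LatSide

set_option autoImplicit false

noncomputable section

open CongruenceSubgroup ModularCurve.Period Module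
open scoped MatrixGroups

namespace Fermat.Agent.H73.H1Low

open Fermat.Agent.H63.H1 Fermat.Agent.H94.EsA

/-! ### Elements of trace `0, ±1` have order dividing `12` -/

/-- Cayley-Hamilton for `SL(2, ℤ)`. -/
theorem sl2_mul_self (γ : SL(2, ℤ)) :
    (γ : Matrix (Fin 2) (Fin 2) ℤ) * (γ : Matrix (Fin 2) (Fin 2) ℤ) =
      (γ : Matrix (Fin 2) (Fin 2) ℤ).trace • (γ : Matrix (Fin 2) (Fin 2) ℤ) - 1 := by
  have hdet : (γ : Matrix (Fin 2) (Fin 2) ℤ) 0 0 * (γ : Matrix (Fin 2) (Fin 2) ℤ) 1 1 -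
      (γ : Matrix (Fin 2) (Fin 2) ℤ) 0 1 * (γ : Matrix (Fin 2) (Fin 2) ℤ) 1 0 = 1 := by
    have := γ.det_coe
    rwa [Matrix.det_fin_two] at this
  ext i j
  fin_cases i <;> fin_cases j <;>
    simp only [Matrix.mul_apply, Fin.sum_univ_two, Matrix.trace_fin_two, Matrix.sub_apply,
      Matrix.smul_apply, Matrix.one_apply, smul_eq_mul, Fin.zero_eta, Fin.mk_one, Fin.isValue,
      if_true, if_false, one_ne_zero, zero_ne_one] <;>
    first | ring1 | linear_combination (-1 : ℤ) * hdet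

theorem sl2_pow_twelve (γ : SL(2, ℤ))
    (h : (γ : Matrix (Fin 2) (Fin 2) ℤ).trace ^ 2 < 4) : γ ^ 12 = 1 := by
  apply Subtype.ext
  rw [Matrix.SpecialLinearGroup.coe_pow, Matrix.SpecialLinearGroup.coe_one]
  have hCH := sl2_mul_self γ
  set A := (γ : Matrix (Fin 2) (Fin 2) ℤ) with hA
  set t := A.trace with ht
  have ht1 : -1 ≤ t ∧ t ≤ 1 := by
    constructor <;> nlinarith
  have hcases : t = -1 ∨ t = 0 ∨ t = 1 := by omega
  rcases hcases with h1 | h1 | h1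
  · rw [h1] at hCH
    have h3 : A ^ 3 = 1 := by
      rw [pow_succ, pow_two, hCH]
      have : (-1 : ℤ) • A = -A := by simp
      rw [this, sub_mul, neg_mul, hCH, this, one_mul]
      abel
    rw [show 12 = 3 * 4 from rfl, pow_mul, h3, one_pow]
  · rw [h1] at hCH
    have h2 : A ^ 2 = -1 := by
      rw [pow_two, hCH]; simp
    rw [show 12 = 2 * 6 from rfl, pow_mul, h2]
    exact Even.neg_one_pow ⟨3, rfl⟩
  · rw [h1] at hCH
    have h3 : A ^ 3 = -1 := by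
      rw [pow_succ, pow_two, hCH, one_smul, sub_mul, hCH, one_smul, one_mul]
      abel
    rw [show 12 = 3 * 4 from rfl, pow_mul, h3]
    exact Even.neg_one_pow ⟨2, rfl⟩

variable {N : ℕ}

/-- Integral parabolic classes vanish on every element with `trace ^ 2 ≤ 4`. -/
theorem isPEHom_of_mem_parabolicHoms {ψ : Additive ↥(Gamma0 N) →+ ℤ}
    (hψ : ψ ∈ parabolicHoms ℤ (Gamma0 N) ℤ) : IsPEHom ψ := by
  intro γ hγ
  rcases hγ.lt_or_eq with h | h
  · have h12 : γ ^ 12 = 1 := by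
      apply Subtype.ext
      rw [Subgroup.coe_pow, Subgroup.coe_one]
      exact sl2_pow_twelve _ h
    have : ψ (Additive.ofMul (γ ^ 12)) = 12 • ψ (Additive.ofMul γ) := by
      rw [ofMul_pow, map_nsmul]
    rw [h12, ofMul_one, map_zero] at this
    have h' : (12 : ℤ) * ψ (Additive.ofMul γ) = 0 := by
      rw [this]; simp
    rcases mul_eq_zero.1 h' with h0 | h0
    · norm_num at h0
    · exact h0
  · exact hψ γ h

/-! ### The exponential character -/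

/-- The character `γ ↦ ζ ^ ψ γ`. -/
def expChar (ζ : ℂˣ) (ψ : Additive ↥(Gamma0 N) →+ ℤ) : Char0 N where
  toFun γ := ζ ^ (ψ (Additive.ofMul γ))
  map_one' := by rw [ofMul_one, map_zero, zpow_zero]
  map_mul' γ δ := by rw [ofMul_mul, map_add, zpow_add]

@[simp]
theorem expChar_apply (ζ : ℂˣ) (ψ : Additive ↥(Gamma0 N) →+ ℤ) (γ : ↥(Gamma0 N)) :
    expChar ζ ψ γ = ζ ^ (ψ (Additive.ofMul γ)) := rfl

theorem expChar_mem {m : ℕ} {ζ : ℂˣ} (hζ : ζ ^ m = 1) {ψ : Additive ↥(Gamma0 N) →+ ℤ}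
    (hψ : ψ ∈ parabolicHoms ℤ (Gamma0 N) ℤ) : expChar ζ ψ ∈ kummerChars N m := by
  refine ⟨fun γ hγ => ?_, ?_⟩
  · rw [expChar_apply, isPEHom_of_mem_parabolicHoms hψ γ hγ, zpow_zero]
  · refine MonoidHom.ext fun γ => ?_
    rw [MonoidHom.pow_apply, expChar_apply, MonoidHom.one_apply, ← zpow_natCast, ← zpow_mul,
      mul_comm, zpow_mul, zpow_natCast, hζ, one_zpow]

theorem dvd_of_expChar_eq {m : ℕ} {ζ : ℂˣ} (hζ : IsPrimitiveRoot ζ m)
    {ψ ψ' : Additive ↥(Gamma0 N) →+ ℤ} (h : expChar ζ ψ = expChar ζ ψ') (γ : ↥(Gamma0 N)) :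
    (m : ℤ) ∣ ψ (Additive.ofMul γ) - ψ' (Additive.ofMul γ) := by
  have h1 := DFunLike.congr_fun h γ
  rw [expChar_apply, expChar_apply] at h1
  rw [← hζ.zpow_eq_one_iff_dvd, zpow_sub, h1, mul_inv_cancel]

/-! ### Saturation of the lattice -/

/-- A parabolic class all of whose values are divisible by `m` is `m` times a parabolic
class. -/
theorem exists_eq_nsmul {m : ℕ} (hm : 0 < m) {φ : Additive ↥(Gamma0 N) →+ ℤ}
    (hφ : φ ∈ parabolicHoms ℤ (Gamma0 N) ℤ) (hdvd : ∀ γ : ↥(Gamma0 N), (m : ℤ) ∣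
      φ (Additive.ofMul γ)) :
    ∃ ψ ∈ parabolicHoms ℤ (Gamma0 N) ℤ, φ = (m : ℤ) • ψ := by
  have hm0 : (m : ℤ) ≠ 0 := by exact_mod_cast hm.ne'
  have hdvd' : ∀ x : Additive ↥(Gamma0 N), (m : ℤ) ∣ φ x := fun x => hdvd (Additive.toMul x)
  refine ⟨{ toFun := fun x => φ x / m
            map_zero' := by rw [map_zero, Int.zero_ediv]
            map_add' := fun x y => by
              rw [map_add, Int.add_ediv_of_dvd_left (hdvd' x)] }, ?_, ?_⟩
  · intro γ hγ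
    show φ (Additive.ofMul γ) / (m : ℤ) = 0
    rw [hφ γ hγ, Int.zero_ediv]
  · refine AddMonoidHom.ext fun x => ?_
    show φ x = (m : ℤ) • (φ x / (m : ℤ))
    rw [smul_eq_mul, Int.mul_ediv_cancel' (hdvd' x)]

/-! ### The count -/

/-- **H1-LOW**: at least `m ^ (2 g)` Kummer characters of exponent `m`. -/
theorem kummerLower (hR : LatticeRankStatement) : KummerLowerStatement := by
  intro N _ m hm hfin
  classical
  -- the root of unity
  have hζ0 : IsPrimitiveRoot (Complex.exp (2 * Real.pi * Complex.I / m)) m :=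
    Complex.isPrimitiveRoot_exp m hm.ne'
  obtain ⟨ζ, hζ⟩ : ∃ ζ : ℂˣ, IsPrimitiveRoot ζ m :=
    ⟨Units.mk0 _ (Complex.exp_ne_zero _), IsPrimitiveRoot.coe_units_iff.1 hζ0⟩
  have hζm : ζ ^ m = 1 := hζ.pow_eq_one
  -- the basis
  let b := Module.finBasis ℤ ↥(parabolicHoms ℤ (Gamma0 N) ℤ)
  let Ψ : (Fin (finrank ℤ ↥(parabolicHoms ℤ (Gamma0 N) ℤ)) → Fin m) →
      ↥(parabolicHoms ℤ (Gamma0 N) ℤ) := fun a => ∑ i, (((a i : ℕ) : ℤ)) • b i
  let F : (Fin (finrank ℤ ↥(parabolicHoms ℤ (Gamma0 N) ℤ)) → Fin m) → ↥(kummerChars N m) :=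
    fun a => ⟨expChar ζ (Ψ a : Additive ↥(Gamma0 N) →+ ℤ), expChar_mem hζm (Ψ a).2⟩
  have hF : Function.Injective F := by
    intro a a' h
    have h1 : expChar ζ (Ψ a : Additive ↥(Gamma0 N) →+ ℤ) =
        expChar ζ (Ψ a' : Additive ↥(Gamma0 N) →+ ℤ) := congrArg Subtype.val h
    have h2 := dvd_of_expChar_eq hζ h1
    obtain ⟨ψ, hψ, hψeq⟩ := exists_eq_nsmul hm (Submodule.sub_mem _ (Ψ a).2 (Ψ a').2) h2
    have h3 : Ψ a - Ψ a' = (m : ℤ) • (⟨ψ, hψ⟩ : ↥(parabolicHoms ℤ (Gamma0 N) ℤ)) :=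
      Subtype.ext hψeq
    funext i
    have h4 := congrArg (fun x => b.repr x i) h3
    simp only [map_sub, map_smul, Finsupp.sub_apply, Finsupp.smul_apply, smul_eq_mul] at h4
    have hrepr : ∀ a'' : Fin (finrank ℤ ↥(parabolicHoms ℤ (Gamma0 N) ℤ)) → Fin m,
        b.repr (Ψ a'') i = ((a'' i : ℕ) : ℤ) := by
      intro a''
      have := b.repr_sum_self (fun i => (((a'' i : ℕ) : ℤ)))
      exact congrFun this i
    rw [hrepr a, hrepr a'] at h4
    have h5 : ((a i : ℕ) : ℤ) ≡ ((a' i : ℕ) : ℤ) [ZMOD (m : ℤ)] := by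
      rw [Int.modEq_iff_dvd]
      exact ⟨-(b.repr ⟨ψ, hψ⟩ i), by linear_combination -h4⟩
    have h6 : (a i : ℕ) ≡ (a' i : ℕ) [MOD m] := Int.natCast_modEq_iff.1 h5
    exact Fin.ext (Nat.ModEq.eq_of_lt_of_lt h6 (a i).2 (a' i).2)
  calc m ^ (2 * hgenus N) ≤ m ^ finrank ℤ ↥(parabolicHoms ℤ (Gamma0 N) ℤ) :=
        Nat.pow_le_pow_right hm (hR N)
    _ = Nat.card (Fin (finrank ℤ ↥(parabolicHoms ℤ (Gamma0 N) ℤ)) → Fin m) := by
        rw [Nat.card_eq_fintype_card, Fintype.card_fun, Fintype.card_fin, Fintype.card_fin]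
    _ ≤ Nat.card ↥(kummerChars N m) := Nat.card_le_card_of_injective F hF

end Fermat.Agent.H73.H1Low

end
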